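/-
S55 / layer G / block REC / adapter TOW, leaf FR (support, helper64): INFLATION in the TOW model.

`M : Tow.Level S`, `H ≤ M.Gal = G_ℚ ⧸ U_M` a subgroup (base field `K = M^H`).

* `preU M H`            : the preimage `U_H` of `H` in `G_ℚ` (= `Gal(ℚ̄/K)`), `isOpenQ_preU`;
* `toH M H : U_H →* H`  : the projection (surjective, kernel `U_M`);
* `cIncl M H`           : the coefficient inclusion `Mˣ → ℚ̄ˣ` (ℤ-linear, injective, equivariant
                          along `toH`);
* `inflCochain₁/₂`      : inflation of cochains (`= cochainsPullPush toH cIncl`), level-constant;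
* `inflCocycles₂`       : inflation `Z²(H, Mˣ) → levelCocycles₂ (U_H) (ℚ̄ˣ)`;
* `inflH2 M H : H²(H, Mˣ) →ₗ[ℤ] gBr (U_H)` with `inflH2_H2π`;
* `h2Desc`              : descent of a linear map on `Z²` vanishing on `B²` to Mathlib's `H²`.

No `sorry`.
-/
import Fermat.Agent.S55.G.Rec.Tow.Defs
import Fermat.Agent.S55.G.Rec.Defs
import Fermat.Agent.S55.T.Spec

set_option autoImplicit false
set_option linter.unusedSectionVars false

open CategoryTheory groupCohomology

noncomputable section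

namespace Fermat.Agent.S55.G.Rec.TOW.H64

open Fermat.Agent.S55 Fermat.Agent.S55.Tow Fermat.Agent.S55.E1.H594

/-! ## Descending linear maps to `H²` -/

section Desc

variable {k G : Type} [CommRing k] [Group G] (A : Rep.{0} k G)

lemma H2π_surjective : Function.Surjective (H2π A).hom :=
  (ModuleCat.epi_iff_surjective (H2π A)).1 inferInstance

/-- A linear map on `Z²(G, A)` vanishing on coboundaries descends to `H²(G, A)`. -/
def h2Desc {X : Type} [AddCommGroup X] [Module k X] (φ : ↥(cocycles₂ A) →ₗ[k] X)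
    (hφ : ∀ x : ↥(cocycles₂ A), (x : G × G → A) ∈ coboundaries₂ A → φ x = 0) :
    groupCohomology A 2 →ₗ[k] X :=
  (Submodule.liftQ (LinearMap.ker (H2π A).hom) φ
      (fun x hx => hφ x ((H2π_eq_zero_iff x).1 hx))) ∘ₗ
    ((H2π A).hom.quotKerEquivOfSurjective (H2π_surjective A)).symm.toLinearMap

lemma h2Desc_H2π {X : Type} [AddCommGroup X] [Module k X] (φ : ↥(cocycles₂ A) →ₗ[k] X)
    (hφ : ∀ x : ↥(cocycles₂ A), (x : G × G → A) ∈ coboundaries₂ A → φ x = 0)
    (x : ↥(cocycles₂ A)) : h2Desc A φ hφ ((H2π A).hom x) = φ x := by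
  have h1 : ((H2π A).hom.quotKerEquivOfSurjective (H2π_surjective A)).symm ((H2π A).hom x) =
      Submodule.Quotient.mk x := by
    rw [LinearEquiv.symm_apply_eq]
    rfl
  simp only [h2Desc, LinearMap.comp_apply, LinearEquiv.coe_coe, h1]
  rfl

end Desc

variable {S : Finset Nat.Primes} (M : Level S) (H : Subgroup M.Gal)

/-! ## The open subgroup `U_H` -/

/-- The preimage `U_H` of `H ≤ Gal(M/ℚ)` in `G_ℚ`: the absolute Galois group of `K = M^H`. -/
def preU : Subgroup GQ := H.comap (QuotientGroup.mk' M.U)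

lemma mem_preU {g : GQ} : g ∈ preU M H ↔ (QuotientGroup.mk g : M.Gal) ∈ H := Iff.rfl

lemma levelU_le_preU : M.U ≤ preU M H := by
  intro g hg
  rw [mem_preU, (QuotientGroup.eq_one_iff g).2 hg]
  exact H.one_mem

lemma isOpenQ_preU : IsOpenQ (preU M H) :=
  ⟨M.F, level_finiteDimensional M, levelU_le_preU M H⟩

/-- The projection `U_H → H`. -/
def toH : ↥(preU M H) →* ↥H := (QuotientGroup.mk' M.U).subgroupComap H

@[simp] lemma toH_coe (u : ↥(preU M H)) :
    ((toH M H u : ↥H) : M.Gal) = QuotientGroup.mk (u : GQ) := rfl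

lemma toH_surjective : Function.Surjective (toH M H) := by
  rintro ⟨h, hh⟩
  obtain ⟨g, rfl⟩ := QuotientGroup.mk_surjective h
  exact ⟨⟨g, hh⟩, rfl⟩

lemma toH_eq_one_iff (u : ↥(preU M H)) : toH M H u = 1 ↔ (u : GQ) ∈ M.U := by
  rw [← QuotientGroup.eq_one_iff (N := M.U)]
  constructor
  · intro h
    have := congrArg (fun x : ↥H => (x : M.Gal)) h
    simpa using this
  · intro h
    apply Subtype.ext
    simpa using h

lemma toH_mul_of_mem (u s : ↥(preU M H)) (hs : (s : GQ) ∈ M.U) :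
    toH M H (u * s) = toH M H u := by
  rw [map_mul, (toH_eq_one_iff M H s).2 hs, mul_one]

/-! ## Coefficients -/

/-- The inclusion `Mˣ → ℚ̄ˣ`. -/
def cInclMul : (↥M.F)ˣ →* Qbarˣ :=
  Units.map ((algebraMap M.F Qbar : M.F →+* Qbar) : M.F →* Qbar)

@[simp] lemma cInclMul_coe (y : (↥M.F)ˣ) : ((cInclMul M y : Qbarˣ) : Qbar) = ((y : M.F) : Qbar) :=
  rfl

lemma cInclMul_injective : Function.Injective (cInclMul M) := by
  intro a b h
  apply Units.ext
  apply Subtype.ext
  have := congrArg (fun u : Qbarˣ => (u : Qbar)) h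
  simpa using this

/-- The coefficient inclusion `Mˣ → ℚ̄ˣ` as a `ℤ`-linear map of the underlying modules. -/
def cIncl : (T.resSub (lvlL M) H) →ₗ[ℤ] gModOn (preU M H) :=
  (MonoidHom.toAdditive (cInclMul M)).toIntLinearMap

lemma cIncl_apply (a : T.resSub (lvlL M) H) :
    cIncl M H a = Additive.ofMul (cInclMul M (Additive.toMul a)) := rfl

lemma cIncl_injective : Function.Injective (cIncl M H) := by
  intro a b h
  have h1 : cInclMul M (Additive.toMul a) = cInclMul M (Additive.toMul b) :=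
    congrArg Additive.toMul h
  exact congrArg Additive.ofMul (cInclMul_injective M h1)

/-- The underlying algebraic number of a finite-level coefficient. -/
def fval (a : T.resSub (lvlL M) H) : Qbar :=
  (((Additive.toMul a : (↥M.F)ˣ) : M.F) : Qbar)

lemma fval_mem (a : T.resSub (lvlL M) H) : fval M H a ∈ M.F :=
  ((Additive.toMul a : (↥M.F)ˣ) : M.F).2

lemma coe_cIncl (a : T.resSub (lvlL M) H) :
    ((Additive.toMul (cIncl M H a) : Qbarˣ) : Qbar) = fval M H a := rfl

lemma cIncl_equivariant (u : ↥(preU M H)) (a : T.resSub (lvlL M) H) :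
    cIncl M H ((T.resSub (lvlL M) H).ρ (toH M H u) a) =
      (gModOn (preU M H)).ρ u (cIncl M H a) := by
  apply Additive.toMul.injective
  apply Units.ext
  exact level_mk_smul M (u : GQ) ((Additive.toMul a : (↥M.F)ˣ) : M.F)

/-! ## Inflation of cochains -/

/-- Inflation of 1-cochains. -/
def inflCochain₁ : (↥H → T.resSub (lvlL M) H) →ₗ[ℤ] (↥(preU M H) → gModOn (preU M H)) :=
  cochainsPullPush₁ (toH M H) (cIncl M H)

/-- Inflation of 2-cochains. -/
def inflCochain₂ :
    (↥H × ↥H → T.resSub (lvlL M) H) →ₗ[ℤ] (↥(preU M H) × ↥(preU M H) → gModOn (preU M H)) :=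
  cochainsPullPush₂ (toH M H) (cIncl M H)

@[simp] lemma inflCochain₁_apply (b : ↥H → T.resSub (lvlL M) H) (u : ↥(preU M H)) :
    inflCochain₁ M H b u = cIncl M H (b (toH M H u)) := rfl

@[simp] lemma inflCochain₂_apply (f : ↥H × ↥H → T.resSub (lvlL M) H)
    (u v : ↥(preU M H)) :
    inflCochain₂ M H f (u, v) = cIncl M H (f (toH M H u, toH M H v)) := rfl

/-- Any function factoring through `toH` is level-constant (of level `M`). -/
lemma isLevelConstant₁_comp_toH {X : Type*} (b : ↥H → X) :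
    IsLevelConstant₁ (preU M H).subtype (b ∘ toH M H) :=
  ⟨M.F, level_finiteDimensional M, fun g s hs => by
    simp only [Function.comp_apply]
    rw [toH_mul_of_mem M H g s hs]⟩

lemma isLevelConstant₂_comp_toH {X : Type*} (f : ↥H × ↥H → X) :
    IsLevelConstant₂ (preU M H).subtype (f ∘ Prod.map (toH M H) (toH M H)) :=
  ⟨M.F, level_finiteDimensional M, fun g g' s s' hs hs' => by
    simp only [Function.comp_apply, Prod.map_apply]
    rw [toH_mul_of_mem M H g s hs, toH_mul_of_mem M H g' s' hs']⟩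

lemma isLevelConstant₁_inflCochain₁ (b : ↥H → T.resSub (lvlL M) H) :
    IsLevelConstant₁ (preU M H).subtype (inflCochain₁ M H b) :=
  ((isLevelConstant₁_comp_toH M H b).comp (cIncl M H) :)

lemma isLevelConstant₂_inflCochain₂ (f : ↥H × ↥H → T.resSub (lvlL M) H) :
    IsLevelConstant₂ (preU M H).subtype (inflCochain₂ M H f) :=
  ((isLevelConstant₂_comp_toH M H f).comp (cIncl M H) :)

/-- The explicit level-constancy of an inflated cochain. -/
lemma inflCochain₂_mul_of_mem (f : ↥H × ↥H → T.resSub (lvlL M) H)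
    (g g' s s' : ↥(preU M H)) (hs : (s : GQ) ∈ M.F.fixingSubgroup)
    (hs' : (s' : GQ) ∈ M.F.fixingSubgroup) :
    inflCochain₂ M H f (g * s, g' * s') = inflCochain₂ M H f (g, g') := by
  rw [inflCochain₂_apply, inflCochain₂_apply, toH_mul_of_mem M H g s hs,
    toH_mul_of_mem M H g' s' hs']

lemma inflCochain₂_d₁₂ (b : ↥H → T.resSub (lvlL M) H) :
    inflCochain₂ M H ((d₁₂ (T.resSub (lvlL M) H)).hom b) =
      (d₁₂ (gModOn (preU M H))).hom (inflCochain₁ M H b) :=
  cochainsPullPush₂_d₁₂ (toH M H) (cIncl M H) (cIncl_equivariant M H) b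

lemma inflCochain₂_mem_levelCocycles₂ {f : ↥H × ↥H → T.resSub (lvlL M) H}
    (hf : f ∈ cocycles₂ (T.resSub (lvlL M) H)) :
    inflCochain₂ M H f ∈ levelCocycles₂ (preU M H).subtype (gModOn (preU M H)) :=
  ⟨cochainsPullPush₂_mem_cocycles₂ (toH M H) (cIncl M H) (cIncl_equivariant M H) hf,
    isLevelConstant₂_inflCochain₂ M H f⟩

lemma inflCochain₂_mem_levelCoboundaries₂ {f : ↥H × ↥H → T.resSub (lvlL M) H}
    (hf : f ∈ coboundaries₂ (T.resSub (lvlL M) H)) :
    inflCochain₂ M H f ∈ levelCoboundaries₂ (preU M H).subtype (gModOn (preU M H)) := by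
  obtain ⟨b, rfl⟩ := hf
  exact (mem_levelCoboundaries₂_iff _ _ _).2
    ⟨inflCochain₁ M H b, isLevelConstant₁_inflCochain₁ M H b, (inflCochain₂_d₁₂ M H b).symm⟩

/-- Inflation on cocycles. -/
def inflCocycles₂ : ↥(cocycles₂ (T.resSub (lvlL M) H)) →ₗ[ℤ]
    ↥(levelCocycles₂ (preU M H).subtype (gModOn (preU M H))) :=
  ((inflCochain₂ M H).comp (cocycles₂ (T.resSub (lvlL M) H)).subtype).codRestrict _
    fun f => inflCochain₂_mem_levelCocycles₂ M H f.2

@[simp] lemma coe_inflCocycles₂ (f : ↥(cocycles₂ (T.resSub (lvlL M) H))) :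
    (inflCocycles₂ M H f : ↥(preU M H) × ↥(preU M H) → gModOn (preU M H)) =
      inflCochain₂ M H (f : ↥H × ↥H → T.resSub (lvlL M) H) := rfl

/-- **Inflation** `H²(H, Mˣ) → Br(K)`, `K = M^H`. -/
def inflH2 : groupCohomology (T.resSub (lvlL M) H) 2 →ₗ[ℤ] gBr (preU M H) :=
  h2Desc (T.resSub (lvlL M) H)
    ((continuousH2π (preU M H).subtype (gModOn (preU M H))).comp (inflCocycles₂ M H))
    (fun f hf =>
      (continuousH2π_eq_zero_iff (preU M H).subtype (gModOn (preU M H)) (inflCocycles₂ M H f)).2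
        (inflCochain₂_mem_levelCoboundaries₂ M H hf))

lemma inflH2_H2π (f : ↥(cocycles₂ (T.resSub (lvlL M) H))) :
    inflH2 M H ((H2π (T.resSub (lvlL M) H)).hom f) =
      continuousH2π (preU M H).subtype (gModOn (preU M H)) (inflCocycles₂ M H f) :=
  h2Desc_H2π _ _ _ f

end Fermat.Agent.S55.G.Rec.TOW.H64
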