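/-
S55 / layer G / block REC / adapter TOW, leaf FR-REC (support, helper64):
LOCAL TRIVIALITY OUTSIDE `S` of an inflated class with trivial divisor class.

`M : Tow.Level S`, `H ≤ M.Gal`, `x ∈ H²(H, Mˣ)` with `ord_* x = 0` in `H²(H, Div^S(M))`.
Then for every prime `q ∉ S` and every `g ∈ G_ℚ`:

  `locBr q g (preU M H) (inflH2 M H x) = 0`      (`locBr_inflH2_eq_zero`)

hence all local invariants of `inflH2 M H x` outside `S` vanish (`invAt_inflH2_eq_zero`).

Proof.  `x = [f]`, `ord ∘ f = d β`.  Choose `b h ∈ Mˣ` with `ord_w (b h) = β h w` for all `w ∣ q`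
(prescribed orders, `G.SIndH237.H870.prescribedOrd`); then `f' = f - d b` is cohomologous to `f`
and `ord_w f' = 0` for all `w ∣ q`, so the values of `f'` are units at every place of `ℚ̄` above
`q` (`Bridge.unit_iff_valuation_eq_one`); `M` is unramified at `q`; conclude with helper181's
`locBr_eq_zero_of_good` (`I.inv_unram` + `I.inv_injective`).

No `sorry`.
-/
import Fermat.Agent.S55.G.Rec.Tow.H64.Infl
import Fermat.Agent.S55.G.Rec.SupportFiniteH181
import Fermat.Agent.S55.Bridge.PlacePrime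
import Fermat.Agent.S55.Bridge.H175.DecompLevel
import Fermat.Agent.S55.G.SIndH237.OrdH870

set_option autoImplicit false
set_option linter.unusedSectionVars false

open CategoryTheory groupCohomology
open scoped NumberField Pointwise
open IsDedekindDomain

noncomputable section

namespace Fermat.Agent.S55.G.Rec.TOW.H64

open Fermat.Agent.S55 Fermat.Agent.S55.Tow Fermat.Agent.S55.E1.H594

/-! ## 1. Inertia at a prime outside `S` acts trivially on a level -/

section Inertia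

variable (q : ℕ) [Fact q.Prime]

/-- The prime `q` as an element of `Nat.Primes`. -/
def qP : Nat.Primes := ⟨q, Fact.out⟩

@[simp] lemma qP_coe : ((qP q : Nat.Primes) : ℕ) = q := rfl

/-- The singleton `{q}` as a set of primes. -/
def qSet : Finset Nat.Primes := {qP q}

lemma mem_qSet {r : Nat.Primes} : r ∈ qSet q ↔ r = qP q := Finset.mem_singleton

/-- An inertial element of `G_{ℚ_q}` maps into the inertia group of the place `padicPlace q`. -/
theorem loc_mem_inertiaSubgroupIn (τ : PadicAlgCl q ≃ₐ[ℚ_[q]] PadicAlgCl q)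
    (hτ : IsInertial q τ) :
    localGaloisToGlobal q τ ∈ (padicPlace q).inertiaSubgroupIn ℚ := by
  rw [Bridge.mem_inertiaSubgroupIn_iff]
  refine ⟨localGaloisToGlobal_mem_decompositionSubgroup q τ, fun z hz => ?_⟩
  rw [Bridge.mem_nonunits_iff_inv_not_mem]
  by_cases h0 : localGaloisToGlobal q τ z - z = 0
  · exact Or.inl h0
  · right
    intro hmem
    rw [H175.mem_padicPlace_iff_norm, map_inv₀, norm_inv] at hmem
    rw [H175.mem_padicPlace_iff_norm] at hz
    have h1 : ‖padicEmbedding q (localGaloisToGlobal q τ z - z)‖ < 1 := by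
      rw [map_sub, padicEmbedding_localGaloisToGlobal]
      exact hτ _ hz
    have h2 : 0 < ‖padicEmbedding q (localGaloisToGlobal q τ z - z)‖ := by
      rw [norm_pos_iff]
      intro h
      exact h0 ((map_eq_zero_iff _ (padicEmbedding q).toRingHom.injective).1 h)
    have h3 := (one_lt_inv₀ h2).2 h1
    exact absurd hmem (not_le.2 h3)

variable {S : Finset Nat.Primes} (M : Level S)

/-- A level of `S` is unramified at `q ∉ S`: inertial elements of `G_{ℚ_q}` fix it. -/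
theorem loc_mem_fixingSubgroup_of_isInertial (hq : qP q ∉ S)
    (τ : PadicAlgCl q ≃ₐ[ℚ_[q]] PadicAlgCl q) (hτ : IsInertial q τ) :
    localGaloisToGlobal q τ ∈ M.F.fixingSubgroup :=
  M.unram.2 ⟨q, Fact.out⟩ hq (padicPlace q) (Bridge.H175.padicPlace_liesOverPrime q)
    (loc_mem_inertiaSubgroupIn q τ hτ)

end Inertia

/-! ## 2. Units at all places above `q` -/

section Norm

variable (q : ℕ) [Fact q.Prime] {S : Finset Nat.Primes} (M : Level S)


/-- If `ord_w y = 0` at all primes `w` of `M` above `q`, then `y` is a unit at every place of `ℚ̄`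
above `q`: `‖ι_q (g y)‖ = 1` for all `g ∈ G_ℚ`. -/
theorem norm_eq_one_of_ordAt (y : Additive (↥M.F)ˣ)
    (hy : ∀ w : HeightOneSpectrum (𝓞 M.F), G.IsAbove (qSet q) M.F w → G.ordAt w y = 0)
    (g : GQ) : ‖padicEmbedding q (g (((Additive.toMul y : (↥M.F)ˣ) : M.F) : Qbar))‖ = 1 := by
  have hqp : q.Prime := Fact.out
  set A : ValuationSubring Qbar := g⁻¹ • padicPlace q with hAdef
  have hA : A.LiesOverPrime q :=
    Bridge.liesOverPrime_smul (padicPlace q) g⁻¹ q (Bridge.H175.padicPlace_liesOverPrime q)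
  have hmemA : ∀ z : Qbar, z ∈ A ↔ ‖padicEmbedding q (g z)‖ ≤ 1 := by
    intro z
    rw [hAdef, Bridge.mem_smul_valuationSubring_iff, inv_inv, H175.mem_padicPlace_iff_norm]
  set w : HeightOneSpectrum (𝓞 M.F) := Bridge.placePrime M.F A hqp hA with hw
  have hwq : G.IsAbove (qSet q) M.F w := by
    refine ⟨qP q, (mem_qSet q).2 rfl, ?_⟩
    exact Bridge.H594.natCast_mem_primeBelowF M.F A hA
  have h0 := hy w hwq
  rw [G.ordAt_eq_zero_iff] at h0
  obtain ⟨h1, h2⟩ := (Bridge.unit_iff_valuation_eq_one M.F A hqp hA (Additive.toMul y)).2 h0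
  rw [hmemA] at h1 h2
  have h3 : padicEmbedding q (g (((Additive.toMul y : (↥M.F)ˣ) : M.F) : Qbar)) *
      padicEmbedding q (g ((((Additive.toMul y)⁻¹ : (↥M.F)ˣ) : M.F) : Qbar)) = 1 := by
    rw [← map_mul, ← map_mul]
    have : ((((Additive.toMul y : (↥M.F)ˣ) : M.F) : Qbar)) *
        (((((Additive.toMul y)⁻¹ : (↥M.F)ˣ) : M.F) : Qbar)) = 1 := by
      rw [← IntermediateField.coe_mul, Units.mul_inv, IntermediateField.coe_one]
    rw [this, map_one, map_one]
  have h4 := congrArg norm h3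
  rw [norm_mul, norm_one] at h4
  refine le_antisymm h1 ?_
  by_contra hlt
  rw [not_le] at hlt
  have h5 : ‖padicEmbedding q (g (((Additive.toMul y : (↥M.F)ˣ) : M.F) : Qbar))‖ *
      ‖padicEmbedding q (g ((((Additive.toMul y)⁻¹ : (↥M.F)ˣ) : M.F) : Qbar))‖ < 1 := by
    calc _ ≤ ‖padicEmbedding q (g (((Additive.toMul y : (↥M.F)ˣ) : M.F) : Qbar))‖ * 1 :=
          mul_le_mul_of_nonneg_left h2 (norm_nonneg _)
      _ = _ := mul_one _
      _ < 1 := hlt
  rw [h4] at h5
  exact lt_irrefl _ h5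

end Norm

/-! ## 3. Killing the divisor above `q` at finite level -/

section Modify

variable (q : ℕ) [Fact q.Prime] {S : Finset Nat.Primes} (M : Level S) (H : Subgroup M.Gal)

/-- A prime of `M` above `q ∉ S` is not above `S`. -/
lemma not_isAbove_of_isAbove_qSet (hq : qP q ∉ S)
    (w : HeightOneSpectrum (𝓞 M.F)) (hw : G.IsAbove (qSet q) M.F w) : ¬ G.IsAbove S M.F w := by
  rintro ⟨q', hq'S, hq'w⟩
  obtain ⟨q0, hq0, hq0w⟩ := hw
  rw [mem_qSet] at hq0
  subst hq0
  rw [qP_coe] at hq0w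
  have hne : (q : ℕ) ≠ (q' : ℕ) := by
    intro h
    apply hq
    have : qP q = q' := Subtype.ext h
    rw [this]
    exact hq'S
  have hcop : Nat.Coprime q (q' : ℕ) := (Nat.coprime_primes Fact.out q'.2).2 hne
  have hic : IsCoprime (q : ℤ) ((q' : ℕ) : ℤ) := Nat.isCoprime_iff_coprime.2 hcop
  obtain ⟨a, b, hab⟩ := hic
  have h1 : (1 : 𝓞 M.F) = (a : 𝓞 M.F) * ((q : ℕ) : 𝓞 M.F) + (b : 𝓞 M.F) * (((q' : ℕ)) : 𝓞 M.F) := by
    have := congrArg (fun z : ℤ => (z : 𝓞 M.F)) hab
    simp only [Int.cast_add, Int.cast_mul, Int.cast_natCast, Int.cast_one] at this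
    exact this.symm
  have h2 : (1 : 𝓞 M.F) ∈ w.asIdeal := by
    rw [h1]
    exact w.asIdeal.add_mem (w.asIdeal.mul_mem_left _ hq0w) (w.asIdeal.mul_mem_left _ hq'w)
  exact w.isPrime.ne_top ((Ideal.eq_top_iff_one _).2 h2)

/-- A prime not above `S` as an element of `PrimeOut`. -/
def mkOut (w : HeightOneSpectrum (𝓞 M.F)) (hw : ¬ G.IsAbove S M.F w) : G.PrimeOut S M.F :=
  ⟨w, hw⟩

@[simp] lemma mkOut_val (w : HeightOneSpectrum (𝓞 M.F)) (hw : ¬ G.IsAbove S M.F w) :
    (mkOut M w hw).1 = w := rfl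

/-- **Modification.**  If `ord ∘ f = d β`, there is a 1-cochain `b` with values in `Mˣ` such that
`f - d b` has trivial order at all primes above `q ∉ S`. -/
theorem exists_modify (hq : qP q ∉ S)
    (f : ↥H × ↥H → Additive (↥M.F)ˣ) (β : ↥H → (G.PrimeOut S M.F →₀ ℤ))
    (hβ : ∀ h₁ h₂ : ↥H, G.ordHom S M.F (f (h₁, h₂)) =
      G.divRepr S M.Gal M.F (h₁ : M.Gal) (β h₂) - β (h₁ * h₂) + β h₁) :
    ∃ b : ↥H → Additive (↥M.F)ˣ, ∀ (h₁ h₂ : ↥H) (w : HeightOneSpectrum (𝓞 M.F)),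
      G.IsAbove (qSet q) M.F w →
      G.ordAt w (f (h₁, h₂) -
        (G.lRepr M.Gal M.F (h₁ : M.Gal) (b h₂) - b (h₁ * h₂) + b h₁)) = 0 := by
  classical
  -- the part of `β h` above `q`
  let d : ↥H → (HeightOneSpectrum (𝓞 M.F) →₀ ℤ) := fun h =>
    ((β h).mapDomain Subtype.val).filter (fun w => G.IsAbove (qSet q) M.F w)
  have hd1 : ∀ h w, d h w ≠ 0 → G.IsAbove (qSet q) M.F w := by
    intro h w hw
    by_contra hnot
    exact hw (Finsupp.filter_apply_neg _ _ hnot)
  have hd2 : ∀ h (w : HeightOneSpectrum (𝓞 M.F)) (hw : G.IsAbove (qSet q) M.F w),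
      d h w = β h (mkOut M w (not_isAbove_of_isAbove_qSet q M hq w hw)) := by
    intro h w hw
    show Finsupp.filter _ _ w = _
    rw [Finsupp.filter_apply_pos _ _ hw]
    exact Finsupp.mapDomain_apply Subtype.val_injective (β h)
      (mkOut M w (not_isAbove_of_isAbove_qSet q M hq w hw))
  have hex : ∀ h : ↥H, ∃ x : Additive (↥M.F)ˣ, ∀ w : HeightOneSpectrum (𝓞 M.F),
      G.IsAbove (qSet q) M.F w → G.ordAt w x = d h w := fun h =>
    G.SIndH237.H870.prescribedOrd (qSet q) M.F (d h) (hd1 h)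
  choose b hb using hex
  refine ⟨b, fun h₁ h₂ w hw => ?_⟩
  -- the prime `w' = h₁⁻¹ w`
  set w' : HeightOneSpectrum (𝓞 M.F) := G.primeSMul M.Gal ((h₁ : M.Gal)⁻¹) w with hw'
  have hw'q : G.IsAbove (qSet q) M.F w' := (G.isAbove_primeSMul_iff (qSet q) M.Gal _ w).2 hw
  have hww' : G.primeSMul M.Gal (h₁ : M.Gal) w' = w := by
    apply HeightOneSpectrum.ext
    rw [hw', G.primeSMul_asIdeal, G.primeSMul_asIdeal, smul_smul, mul_inv_cancel, one_smul]
  have hwS := not_isAbove_of_isAbove_qSet q M hq w hw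
  have hw'S := not_isAbove_of_isAbove_qSet q M hq w' hw'q
  have hpm : G.primeOutMap S M.Gal M.F (h₁ : M.Gal) (mkOut M w' hw'S) = mkOut M w hwS :=
    Subtype.ext hww'
  -- the order of `f`
  have e1 : G.ordAt w (f (h₁, h₂)) =
      β h₂ (mkOut M w' hw'S) - β (h₁ * h₂) (mkOut M w hwS) + β h₁ (mkOut M w hwS) := by
    have h0 : G.ordHom S M.F (f (h₁, h₂)) (mkOut M w hwS) = G.ordAt w (f (h₁, h₂)) :=
      G.ordHom_apply S M.F (f (h₁, h₂)) (mkOut M w hwS)
    have h := DFunLike.congr_fun (hβ h₁ h₂) (mkOut M w hwS)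
    rw [h0, Finsupp.add_apply, Finsupp.sub_apply] at h
    rw [h]
    congr 2
    rw [← hpm, G.divRepr_apply_apply]
  -- the order of `d b`
  have e2 : G.ordAt w (G.lRepr M.Gal M.F (h₁ : M.Gal) (b h₂)) = β h₂ (mkOut M w' hw'S) := by
    rw [← hww', G.ordAt_primeSMul, hb h₂ w' hw'q, hd2 h₂ w' hw'q]
  have e3 : G.ordAt w (b (h₁ * h₂)) = β (h₁ * h₂) (mkOut M w hwS) := by
    rw [hb _ w hw, hd2 _ w hw]
  have e4 : G.ordAt w (b h₁) = β h₁ (mkOut M w hwS) := by
    rw [hb _ w hw, hd2 _ w hw]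
  rw [map_sub, map_add, map_sub, e1, e2, e3, e4]
  ring

end Modify

/-! ## 4. The main results -/

section Main

variable {S : Finset Nat.Primes} (M : Level S) (H : Subgroup M.Gal)

set_option maxHeartbeats 1000000 in
/-- **Local triviality outside `S`.**  If `x ∈ H²(H, Mˣ)` has trivial divisor class
(`ord_* x = 0` in `H²(H, Div^S(M))`), then the inflation of `x` to `Br(K)`, `K = M^H`, is trivial
at every place of `K` above a prime `q ∉ S`. -/
theorem locBr_inflH2_eq_zero (I : LocalInvSystem)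
    (x : groupCohomology (T.resSub (lvlL M) H) 2)
    (hx : h2Sub (G.ordRepHom S M.Gal M.F) H x = 0)
    (q : ℕ) [Fact q.Prime] (hq : qP q ∉ S) (g : GQ) :
    locBr q g (preU M H) (inflH2 M H x) = 0 := by
  obtain ⟨f, rfl⟩ := H2π_surjective _ x
  -- the divisor of `f` is a coboundary
  have e1 : h2Sub (G.ordRepHom S M.Gal M.F) H ((H2π (T.resSub (lvlL M) H)).hom f) =
      (H2π (T.resSub (G.DivRep S M.Gal M.F) H)).hom
        ((mapCocycles₂ (A := T.resSub (lvlL M) H) (B := T.resSub (G.DivRep S M.Gal M.F) H)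
          (MonoidHom.id ↥H) ((Rep.resFunctor H.subtype).map (G.ordRepHom S M.Gal M.F))).hom f) :=
    H2π_comp_map_apply _ _ _
  rw [e1] at hx
  obtain ⟨β, hβ⟩ := (H2π_eq_zero_iff _).1 hx
  let βf : ↥H → (G.PrimeOut S M.F →₀ ℤ) := β
  let ff : ↥H × ↥H → Additive (↥M.F)ˣ := (f : ↥H × ↥H → T.resSub (lvlL M) H)
  have hβ' : ∀ h₁ h₂ : ↥H, G.ordHom S M.F (ff (h₁, h₂)) =
      G.divRepr S M.Gal M.F (h₁ : M.Gal) (βf h₂) - βf (h₁ * h₂) + βf h₁ := by
    intro h₁ h₂
    have := congrFun hβ (h₁, h₂)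
    rw [d₁₂_hom_apply] at this
    exact this.symm
  obtain ⟨b, hb⟩ := exists_modify q M H hq ff βf hβ'
  -- the modified cocycle
  have hdb : (d₁₂ (T.resSub (lvlL M) H)).hom b ∈ cocycles₂ (T.resSub (lvlL M) H) :=
    coboundaries₂_le_cocycles₂ _ ⟨b, rfl⟩
  set f' : ↥(cocycles₂ (T.resSub (lvlL M) H)) := f - ⟨_, hdb⟩ with hf'
  have hff' : (H2π (T.resSub (lvlL M) H)).hom f = (H2π (T.resSub (lvlL M) H)).hom f' := by
    rw [H2π_eq_iff]
    refine ⟨b, ?_⟩
    show _ = (f : ↥H × ↥H → T.resSub (lvlL M) H) -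
      ((f : ↥H × ↥H → T.resSub (lvlL M) H) - (d₁₂ (T.resSub (lvlL M) H)).hom b)
    rw [sub_sub_cancel]
  rw [hff', inflH2_H2π]
  have hN : Normal ℚ M.F := (level_isGalois M).to_normal
  have hconst : ∀ g g' s s' : ↥(preU M H), (s : GQ) ∈ M.F.fixingSubgroup →
      (s' : GQ) ∈ M.F.fixingSubgroup →
      (inflCocycles₂ M H f' : ↥(preU M H) × ↥(preU M H) → gModOn (preU M H)) (g * s, g' * s') =
        (inflCocycles₂ M H f' : ↥(preU M H) × ↥(preU M H) → gModOn (preU M H)) (g, g') :=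
    fun g g' s s' hs hs' => inflCochain₂_mul_of_mem M H _ g g' s s' hs hs'
  have h2 := loc_mem_fixingSubgroup_of_isInertial q M hq
  have h1 : ∀ (g₁ h₁ : ↥(preU M H)) (g' : GQ), ‖padicEmbedding q (g' (H181.gval (preU M H)
      ((inflCocycles₂ M H f' : ↥(preU M H) × ↥(preU M H) → gModOn (preU M H)) (g₁, h₁))))‖ = 1 := by
    intro g₁ h₁ g'
    have hy := norm_eq_one_of_ordAt q M
      ((f' : ↥H × ↥H → T.resSub (lvlL M) H) (toH M H g₁, toH M H h₁))
      (fun w hw => hb (toH M H g₁) (toH M H h₁) w hw) g'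
    exact hy
  exact H181.locBr_eq_zero_of_good I (isOpenQ_preU M H) (inflCocycles₂ M H f') M.F hconst q h1 h2 g

/-- All local invariants outside `S` of the inflation of a class with trivial divisor class
vanish. -/
theorem invAt_inflH2_eq_zero (I : LocalInvSystem)
    (x : groupCohomology (T.resSub (lvlL M) H) 2)
    (hx : h2Sub (G.ordRepHom S M.Gal M.F) H x = 0)
    (q : Nat.Primes) (hq : q ∉ S) (g : GQ) :
    I.invAt q g (preU M H) (inflH2 M H x) = 0 := by
  have : Fact (q : ℕ).Prime := ⟨q.2⟩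
  show I.inv (q : ℕ) (locSub (q : ℕ) g (preU M H)) (locBr (q : ℕ) g (preU M H) (inflH2 M H x)) = 0
  have hq' : qP (q : ℕ) ∉ S := hq
  rw [locBr_inflH2_eq_zero M H I x hx (q : ℕ) hq' g, map_zero]

end Main

end Fermat.Agent.S55.G.Rec.TOW.H64
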