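/-
S55 / layer G / block REC / adapter TOW, leaf FR-REC (helper64):
RECIPROCITY AT FINITE LEVEL, in the inflation model of `Tow/H64/Infl.lean`.

`M : Tow.Level S`, `H ≤ M.Gal`, `x ∈ H²(H, Mˣ)` `p`-primary with `ord_* x = 0` in
`H²(H, Div^S(M))`.  Then, for ANY system `R` of representatives of the places of `K = M^H`
(double cosets `U_H \ G_ℚ / D_q`),

  `∑_{q ∈ S} ∑_{r ∈ R q} inv_{q,r} (infl x) = 0`       (`sum_invAt_inflH2_eq_zero`).

Inputs: `ReciprocitySpec I p` (on main: `G.Rec.HP.reciprocityClosed I p hp2`, `p` odd; not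
imported here to keep the closure small) and the vanishing outside `S` (`OutS.lean`).

No `sorry`.
-/
import Fermat.Agent.S55.G.Rec.Tow.H64.OutS
import Fermat.Agent.S55.G.Rec.Spec

set_option autoImplicit false

open CategoryTheory groupCohomology

noncomputable section

namespace Fermat.Agent.S55.G.Rec.TOW.H64

open Fermat.Agent.S55 Fermat.Agent.S55.Tow Fermat.Agent.S55.E1.H594

variable {S : Finset Nat.Primes} (M : Level S) (H : Subgroup M.Gal)

/-- The inflation of a `p`-primary class is `p`-primary. -/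
lemma inflH2_isPPrimary (p : ℕ) (x : groupCohomology (T.resSub (lvlL M) H) 2)
    (hx : E1.IsPPrimary p x) : ∃ k : ℕ, p ^ k • inflH2 M H x = 0 := by
  obtain ⟨k, hk⟩ := hx
  refine ⟨k, ?_⟩
  rw [← map_nsmul, hk, map_zero]

/-- The sum over the places above `S` from the full reciprocity law, given the vanishing of the
local invariants outside `S`. -/
theorem sum_invAt_eq_zero_of_out (I : LocalInvSystem) (p : ℕ) (hrec : ReciprocitySpec I p)
    (U : Subgroup GQ) (hU : IsOpenQ U)
    (y : gBr U) (hy : ∃ k : ℕ, p ^ k • y = 0)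
    (hout : ∀ q : Nat.Primes, q ∉ S → ∀ g : GQ, I.invAt q g U y = 0)
    (R : Nat.Primes → Finset GQ)
    (hR : ∀ q : Nat.Primes,
      haveI : Fact (q : ℕ).Prime := ⟨q.2⟩
      IsDoubleCosetReps U (localGaloisToGlobal (q : ℕ)).range (R q)) :
    ∑ q ∈ S, ∑ r ∈ R q, I.invAt q r U y = 0 := by
  obtain ⟨-, h⟩ := hrec U hU y hy R hR
  rw [finsum_eq_sum_of_support_subset] at h
  · exact h
  · intro q hq
    by_contra hqS
    apply hq
    exact Finset.sum_eq_zero fun r _ => hout q hqS r

/-- **FR-REC, DEF-independent form.**  Reciprocity for the inflation of a `p`-primary class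
`x ∈ H²(H, Mˣ)` with trivial divisor class: the sum of its local invariants over the places of
`K = M^H` above `S` vanishes, for any system of representatives of the places. -/
theorem sum_invAt_inflH2_eq_zero (I : LocalInvSystem) (p : ℕ) (hrec : ReciprocitySpec I p)
    (x : groupCohomology (T.resSub (lvlL M) H) 2) (hx : E1.IsPPrimary p x)
    (hord : h2Sub (G.ordRepHom S M.Gal M.F) H x = 0)
    (R : Nat.Primes → Finset GQ)
    (hR : ∀ q : Nat.Primes,
      haveI : Fact (q : ℕ).Prime := ⟨q.2⟩
      IsDoubleCosetReps (preU M H) (localGaloisToGlobal (q : ℕ)).range (R q)) :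
    ∑ q ∈ S, ∑ r ∈ R q, I.invAt q r (preU M H) (inflH2 M H x) = 0 :=
  sum_invAt_eq_zero_of_out I p hrec (preU M H) (isOpenQ_preU M H) _
    (inflH2_isPPrimary M H p x hx)
    (fun q hq g => invAt_inflH2_eq_zero M H I x hord q hq g) R hR

end Fermat.Agent.S55.G.Rec.TOW.H64
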